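/-
S28 (Igusa) -- helper448: adapter `CoreData N K → BasisData N ℓ`
(route (a) of the integration chain; backup of the stub `basisData_of_coreData`
of the captain skeleton, statement identical).
-/
import Mathlib
import Fermat.Agent.S28.Defs
import Fermat.Agent.S28.Basis

set_option autoImplicit false

noncomputable section

open ModularCurve HahnSeries

namespace Fermat.Agent.S28.H448

/-! ### (B1) integrality over `ℤ[j]` of the subring generated by the `j(q^d)` -/

theorem isIntegralElem_of_mem_closure (N : ℕ)
    (hint : ∀ (d : ℕ) [NeZero d], d ∣ N →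
      ∃ P : Polynomial (Polynomial ℤ), P.Monic ∧
        P.eval₂ (evalAt (jqModC ℤ)) (qExpand ℤ d (jqModC ℤ)) = 0)
    {x : LaurentSeries ℤ} (hx : x ∈ Subring.closure (intDivisorExpansions N)) :
    (evalAt (jqModC ℤ)).IsIntegralElem x := by
  induction hx using Subring.closure_induction with
  | mem x hx =>
    obtain ⟨d, hd, hdN, rfl⟩ := hx
    exact hint d hdN
  | zero => exact RingHom.isIntegralElem_zero _
  | one => exact RingHom.isIntegralElem_one _
  | add x y _ _ hx hy => exact RingHom.IsIntegralElem.add _ hx hy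
  | neg x _ hx => exact RingHom.IsIntegralElem.neg _ hx
  | mul x y _ _ hx hy => exact RingHom.IsIntegralElem.mul _ hx hy

/-! ### (B2) clearing denominators in `ℚ(j)` -/

/-- `evalAt` over `ℚ` is `aeval` of the polynomial mapped to `ℚ[X]`. -/
theorem evalAt_rat_eq (g : Polynomial ℤ) :
    evalAt (jqModC ℚ) g = Polynomial.aeval (jqModC ℚ) (g.map (Int.castRingHom ℚ)) := by
  simp [evalAt, Polynomial.aeval_def, Polynomial.eval₂_map]
  congr 1
  exact RingHom.ext_int _ _

/-- every element of `ℚ(j)` is a quotient of values of integer polynomials at `j`. -/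
theorem exists_int_fraction {c : LaurentSeries ℚ} (hc : c ∈ jField ℚ) :
    ∃ (r s : Polynomial ℤ), s ≠ 0 ∧ evalAt (jqModC ℚ) s * c = evalAt (jqModC ℚ) r := by
  unfold jField at hc
  obtain ⟨r, s, rfl⟩ := (IntermediateField.mem_adjoin_simple_iff ℚ c).mp hc
  by_cases hs : Polynomial.aeval (jqModC ℚ) s = 0
  · refine ⟨0, 1, one_ne_zero, ?_⟩
    simp [hs]
  · have hs0 : s ≠ 0 := by
      rintro rfl
      exact hs (map_zero _)
    obtain ⟨b, hb, hbr⟩ :=
      IsLocalization.integerNormalization_spec (nonZeroDivisors ℤ) r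
    obtain ⟨b', hb', hbs⟩ :=
      IsLocalization.integerNormalization_spec (nonZeroDivisors ℤ) s
    set R := IsLocalization.integerNormalization (nonZeroDivisors ℤ) r with hR
    set S := IsLocalization.integerNormalization (nonZeroDivisors ℤ) s with hS
    have hb0 : b ≠ 0 := nonZeroDivisors.ne_zero hb
    have hb'0 : b' ≠ 0 := nonZeroDivisors.ne_zero hb'
    simp only [algebraMap_int_eq, zsmul_eq_mul] at hbr hbs
    refine ⟨Polynomial.C b' * R, Polynomial.C b * S, ?_, ?_⟩
    · refine mul_ne_zero (by simpa using hb0) ?_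
      intro hS0
      have h0 : ((b' : ℤ) : Polynomial ℚ) * s = 0 := by
        rw [← hbs, hS0, Polynomial.map_zero]
      rcases mul_eq_zero.mp h0 with h | h
      · exact hb'0 (by exact_mod_cast h)
      · exact hs0 h
    · rw [evalAt_rat_eq, evalAt_rat_eq, Polynomial.map_mul, Polynomial.map_mul, hbr, hbs,
        Polynomial.map_C, Polynomial.map_C]
      simp only [map_mul, eq_intCast, map_intCast]
      field_simp

/-- (B2) in polynomial form from a `ℚ(j)`-linear combination. -/
theorem exists_cleared_of_mem_span {n : ℕ} (v : Fin n → LaurentSeries ℚ)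
    {x : LaurentSeries ℚ} (hx : x ∈ Submodule.span (jField ℚ) (Set.range v)) :
    ∃ (g : Polynomial ℤ) (f : Fin n → Polynomial ℤ),
      g ≠ 0 ∧ evalAt (jqModC ℚ) g * x = ∑ i, evalAt (jqModC ℚ) (f i) * v i := by
  obtain ⟨c, rfl⟩ := (Submodule.mem_span_range_iff_exists_fun (jField ℚ)).mp hx
  choose r s hs hrs using fun i => exists_int_fraction (c i).2
  refine ⟨∏ i, s i, fun i => r i * ∏ k ∈ Finset.univ.erase i, s k,
    Finset.prod_ne_zero_iff.mpr fun i _ => hs i, ?_⟩
  rw [Finset.mul_sum]
  refine Finset.sum_congr rfl fun i _ => ?_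
  rw [← Finset.mul_prod_erase Finset.univ s (Finset.mem_univ i), map_mul, map_mul]
  have hsmul : (c i • v i : LaurentSeries ℚ) = (c i : LaurentSeries ℚ) * v i := rfl
  rw [hsmul, ← hrs i]
  ring

/-! ### (B3) independence mod `ℓ` -/

theorem coeffMap_aeval_jqModC {A B : Type*} [Field A] [Field B] (φ : A →+* B)
    (f : Polynomial A) :
    coeffMap φ (Polynomial.aeval (jqModC A) f) =
      Polynomial.aeval (jqModC B) (f.map φ) := by
  induction f using Polynomial.induction_on' with
  | add p q hp hq => rw [map_add, map_add, Polynomial.map_add, map_add, hp, hq]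
  | monomial k a =>
    rw [Polynomial.map_monomial, Polynomial.aeval_monomial, Polynomial.aeval_monomial,
      map_mul, map_pow, coeffMap_jqModC, algebraMap_laurentSeries_eq_single,
      algebraMap_laurentSeries_eq_single, coeffMap_single]

theorem aeval_jqModC_injective (k : Type*) [Field k] :
    Function.Injective (Polynomial.aeval (jqModC k) : Polynomial k →ₐ[k] LaurentSeries k) := by
  rw [injective_iff_map_eq_zero]
  intro P hP
  by_contra hP0
  have h : (Polynomial.aeval (jqModC k) P).coeff (-(P.natDegree : ℤ)) = P.leadingCoeff := by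
    rw [Polynomial.aeval_eq_sum_range, HahnSeries.coeff_sum,
      Finset.sum_eq_single_of_mem P.natDegree (Finset.self_mem_range_succ _)]
    · rw [Algebra.smul_def, algebraMap_laurentSeries_eq_single,
        HahnSeries.coeff_single_zero_mul, coeff_jqModC_pow_self, mul_one]; rfl
    · intro i hi hne
      have hlt : i < P.natDegree :=
        lt_of_le_of_ne (Nat.lt_succ_iff.mp (Finset.mem_range.mp hi)) hne
      rw [Algebra.smul_def, algebraMap_laurentSeries_eq_single,
        HahnSeries.coeff_single_zero_mul, coeff_jqModC_pow_of_lt k (by omega), mul_zero]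
  rw [hP, HahnSeries.coeff_zero] at h
  exact hP0 (Polynomial.leadingCoeff_eq_zero.mp h.symm)

theorem aeval_jqModC_mem_jField (k : Type*) [Field k] (f : Polynomial k) :
    Polynomial.aeval (jqModC k) f ∈ jField k := by
  unfold jField
  have hj : jqModC k ∈ IntermediateField.adjoin k {jqModC k} :=
    IntermediateField.subset_adjoin k _ (Set.mem_singleton _)
  rw [Polynomial.aeval_eq_sum_range]
  refine sum_mem fun i _ => ?_
  rw [Algebra.smul_def]
  exact mul_mem (IntermediateField.algebraMap_mem _ _) (pow_mem hj i)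

theorem indep_mod_of_linearIndependent (ℓ : ℕ) [Fact ℓ.Prime]
    (K : Type) [Field K] [CharP K ℓ] {n : ℕ} (y : Fin n → LaurentSeries ℤ)
    (hli : LinearIndependent (jField K) (fun i => coeffMap (Int.castRingHom K) (y i)))
    (f : Fin n → Polynomial (ZMod ℓ))
    (hf : ∑ i, Polynomial.aeval (jqModC (ZMod ℓ)) (f i) *
          coeffMap (Int.castRingHom (ZMod ℓ)) (y i) = 0) : ∀ i, f i = 0 := by
  set φ : ZMod ℓ →+* K := ZMod.castHom (dvd_refl ℓ) K with hφ
  have hφinj : Function.Injective φ := φ.injective
  have h1 := congrArg (coeffMap φ) hf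
  rw [map_sum, map_zero] at h1
  have h2 : ∑ i, (⟨Polynomial.aeval (jqModC K) ((f i).map φ),
      aeval_jqModC_mem_jField K _⟩ : jField K) • coeffMap (Int.castRingHom K) (y i) = 0 := by
    rw [← h1]
    refine Finset.sum_congr rfl fun i _ => ?_
    rw [map_mul, coeffMap_aeval_jqModC, coeffMap_coeffMap,
      RingHom.ext_int (φ.comp (Int.castRingHom (ZMod ℓ))) (Int.castRingHom K)]
    rfl
  intro i
  have h3 := Fintype.linearIndependent_iff.mp hli _ h2 i
  have h4 : Polynomial.aeval (jqModC K) ((f i).map φ) = 0 := congrArg Subtype.val h3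
  have h5 : (f i).map φ = 0 := by
    apply aeval_jqModC_injective K
    rw [h4, map_zero]
  exact (Polynomial.map_eq_zero_iff hφinj).mp h5

/-! ### The adapter -/

/-- adapter route (a) -> `BasisData` (statement of the captain stub `basisData_of_coreData`). -/
theorem basisData_of_coreData (N : ℕ) [NeZero N] (ℓ : ℕ) [Fact ℓ.Prime]
    (K : Type) [Field K] [CharP K ℓ] (h : CoreData N K) : BasisData N ℓ := by
  obtain ⟨n, y, hy, hspan, hli⟩ := h.exists_basis
  refine ⟨n, y, ?_, ?_, ?_⟩
  · intro i
    obtain ⟨P, hP, hPy⟩ := isIntegralElem_of_mem_closure N h.integral (hy i)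
    refine ⟨1, P, ?_, ?_, hPy⟩
    · exact fun h1 => (Fact.out : ℓ.Prime).one_lt.ne' (Nat.dvd_one.mp h1)
    · rw [hP.leadingCoeff]; simp
  · intro x hx
    exact exists_cleared_of_mem_span (fun i => coeffMap (Int.castRingHom ℚ) (y i))
      (hspan x hx)
  · intro f hf
    exact indep_mod_of_linearIndependent ℓ K y hli f hf

end Fermat.Agent.S28.H448
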